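import Fermat.Agent.V.Div.Main
import Fermat.Agent.S24.Degree
import Fermat.Agent.S24.KaehlerRank
import Fermat.Agent.S24.PlacesCenter
import Fermat.Agent.S24.PlacesPrincipal

/-!
# Program V, divisibility leaf (prefix `v27dv`): `J₀(N)(ℚ-bar)` is divisible

Owner: helper24.

* `v27dv_isCurveOver_of_isSepGen`, `v27dv_essFiniteType_of_isSepGen` : a function field with a
  separating generator (S24's `IsSepGen`) over a field of characteristic `0` is a Prelude curve;
* `v27dv_isCurveOver_modular`, `v27dv_essFiniteType_modular` : the function field of `X₀(N)` over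
  `ℚ`-bar;
* `v27dv_JZero_divisible` : `∀ x : JZero N, ∃ y, n • y = x` (`n > 0`).
-/

set_option autoImplicit false
set_option linter.style.haveILetI false

namespace Fermat.Agent.V

open AlgebraicCurve ModularCurve Fermat.Agent.S24

section Generic

variable {K F : Type*} [Field K] [Field F] [Algebra K F]

theorem v27dv_isCurveOver_of_isSepGen [CharZero K] {t : F} (ht : IsSepGen K t) :
    IsCurveOver K F :=
  { toHasPrincipalDivisors := ht.hasPrincipalDivisors
    finiteResidue := ht.finite_residueField
    kaehler_free_rank_one := by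
      haveI := ht.finite
      haveI := ht.separable
      exact ⟨Module.Free.of_divisionRing _ _, kaehlerRank_finrank_eq_one ht.transcendental⟩ }

theorem v27dv_essFiniteType_of_isSepGen {t : F} (ht : IsSepGen K t) :
    Algebra.EssFiniteType K F := by
  haveI := ht.finite
  exact kaehlerRank_essFiniteType t

end Generic

theorem v27dv_isCurveOver_modular (N : ℕ) [NeZero N] :
    IsCurveOver (AlgebraicClosure ℚ) (modularFunctionFieldBar N) :=
  v27dv_isCurveOver_of_isSepGen (isSepGen_jBar N)

theorem v27dv_essFiniteType_modular (N : ℕ) [NeZero N] :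
    Algebra.EssFiniteType (AlgebraicClosure ℚ) (modularFunctionFieldBar N) :=
  v27dv_essFiniteType_of_isSepGen (isSepGen_jBar N)

/-- **`J₀(N)(ℚ-bar)` is divisible.** -/
theorem v27dv_JZero_divisible (N : ℕ) [NeZero N] (n : ℕ) (hn : 0 < n) (x : JZero N) :
    ∃ y : JZero N, n • y = x := by
  haveI := v27dv_isCurveOver_modular N
  haveI := v27dv_essFiniteType_modular N
  exact v27dv_divisible (AlgebraicClosure ℚ) (modularFunctionFieldBar N) n hn x

end Fermat.Agent.V
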