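import Mathlib
import Fermat.Agent.V.FO.Formulas

/-!
# Program V, divisibility leaf (prefix `v27dv` / `V27dv`): the first-order sentence

Owner: helper24.

`V27dvPhi δ D l g' w` : `w` is the coefficient vector of a table with (P3), and there is a tuple `E`
of `g'` points such that NO tuples `E'`, `Eb` of `g'` points satisfy
`[ΣE + ΣEb - 2g'∞] = 0` and `[l ΣE' + ΣEb - (l g' + g')∞] = 0`, i.e. the class `[ΣE - g'∞]` is not
`l` times the class of a `g'`-tuple.  Both conditions are instances of helper24's `V27coTors D 1`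
(on concatenated tuples), so nothing new is needed in coordinates.

`v27dv_Phi` : the sentence is uniformly first-order definable (`V27Def`).
-/

set_option autoImplicit false
set_option linter.unusedSectionVars false
set_option linter.unusedVariables false

namespace Fermat.Agent.V

open Polynomial

universe u

section Defs

variable {K : Type*} [Field K] {δ : V27pShape}

/-- the tuple `E'` repeated `l` times, followed by `Eb` -/
def v27dvTup (l : ℕ) {g' : ℕ} (E' Eb : Fin g' → V27coP δ → K) :
    Fin (l * g' + g') → V27coP δ → K :=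
  Fin.append (fun k : Fin (l * g') => E' (finProdFinEquiv.symm k).2) Eb

/-- **Φ^Div**: a table with (P3) and a class which is not `l` times a class. -/
def V27dvPhi (δ : V27pShape) (D l g' : ℕ) (w : V27coC δ → K) : Prop :=
  V27coIsTable (v27coTab w) ∧ V27coP3 D (v27coTab w) ∧
  ∃ E : Fin g' → V27coP δ → K, (∀ k, V27coPt (v27coTab w) (E k)) ∧
    ∀ E' : Fin g' → V27coP δ → K, (∀ k, V27coPt (v27coTab w) (E' k)) →
    ∀ Eb : Fin g' → V27coP δ → K, (∀ k, V27coPt (v27coTab w) (Eb k)) →
      ¬ (V27coTors D 1 (v27coTab w) (Fin.append E Eb) ∧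
        V27coTors D 1 (v27coTab w) (v27dvTup l E' Eb))

end Defs

/-- **Φ^Div is uniformly first-order definable.** -/
theorem v27dv_Phi (δ : V27pShape) (D l g' : ℕ) :
    V27Def.{u} (α := V27coC δ) (fun K _ w => V27dvPhi δ D l g' w) := by
  unfold V27dvPhi
  have hc := fun i j k : ZMod δ.N => v27ff_tab.{u} (δ := δ) (α := V27coC δ)
    (w := fun K _ v b => v b) (fun b => V27Poly.var b) i j k
  refine V27Def.and (v27ff_isTable hc) (V27Def.and (v27ff_P3 D hc) ?_)
  apply V27Def.ex₂
  have hc1 := fun i j k : ZMod δ.N => v27ff_tab.{u} (δ := δ)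
    (α := V27coC δ ⊕ (Fin g' × V27coP δ))
    (w := fun K _ v b => v (Sum.inl b)) (fun b => V27Poly.var _) i j k
  refine V27Def.and ?_ ?_
  · exact V27Def.forall_fin fun k => v27ff_pt hc1 (fun x => V27Poly.var (Sum.inr (k, x)))
  apply V27Def.all₂
  have hc2 := fun i j k : ZMod δ.N => v27ff_tab.{u} (δ := δ)
    (α := (V27coC δ ⊕ (Fin g' × V27coP δ)) ⊕ (Fin g' × V27coP δ))
    (w := fun K _ v b => v (Sum.inl (Sum.inl b))) (fun b => V27Poly.var _) i j k
  apply V27Def.imp
  · exact V27Def.forall_fin fun k => v27ff_pt hc2 (fun x => V27Poly.var (Sum.inr (k, x)))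
  apply V27Def.all₂
  have hc3 := fun i j k : ZMod δ.N => v27ff_tab.{u} (δ := δ)
    (α := ((V27coC δ ⊕ (Fin g' × V27coP δ)) ⊕ (Fin g' × V27coP δ)) ⊕ (Fin g' × V27coP δ))
    (w := fun K _ v b => v (Sum.inl (Sum.inl (Sum.inl b)))) (fun b => V27Poly.var _) i j k
  apply V27Def.imp
  · exact V27Def.forall_fin fun k => v27ff_pt hc3 (fun x => V27Poly.var (Sum.inr (k, x)))
  apply V27Def.not
  apply V27Def.and
  · refine v27ff_tors D 1 hc3 (fun i x => ?_)
    refine Fin.addCases (fun i' => ?_) (fun i' => ?_) i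
    · exact (V27Poly.var (Sum.inl (Sum.inl (Sum.inr (i', x))))).congr
        (fun K _ v => by rw [Fin.append_left])
    · exact (V27Poly.var (Sum.inr (i', x))).congr (fun K _ v => by rw [Fin.append_right])
  · refine v27ff_tors D 1 hc3 (fun i x => ?_)
    unfold v27dvTup
    refine Fin.addCases (fun i' => ?_) (fun i' => ?_) i
    · exact (V27Poly.var (Sum.inl (Sum.inr ((finProdFinEquiv.symm i').2, x)))).congr
        (fun K _ v => by rw [Fin.append_left])
    · exact (V27Poly.var (Sum.inr (i', x))).congr (fun K _ v => by rw [Fin.append_right])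

end Fermat.Agent.V
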