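import Fermat.Agent.V.Div.Sem
import Fermat.Agent.V.A.Torsion
import Fermat.Agent.V.Pres.InstFrac
import Fermat.Agent.V.Pres.OfWeierMain
import Fermat.Agent.V.Coord.TableW
import Fermat.Agent.V.Univ.AlgClosed

/-!
# Program V, divisibility leaf (prefix `v27dv`): `Pic0` is divisible in characteristic zero

Owner: helper24.

`v27dv_main` : for `K` algebraically closed of characteristic `0` and `F / K` a Prelude curve,
`Pic0 K F` is `l`-divisible for every prime `l`; `v27dv_divisible` : it is `n`-divisible for every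
`n > 0`.

Proof: the sentence `V27dvPhi` ("some class is not `l` times a class", `V/Div/Formula.lean`) is
first-order in the coefficients of a presentation; over `𝔽_p`-bar (`p ≠ l`) it has no solution
since `Pic0` is torsion with `|Pic0[l^n]| = l^(2gn)` (half A, helper2's `v27At_divisible`);
Lefschetz (`V27Def.transfer`).
-/

set_option autoImplicit false
set_option linter.style.haveILetI false

namespace Fermat.Agent.V

open AlgebraicCurve AlgebraicCurve.Pic0 Fermat.Agent.V.RR

universe u v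

/-- **`Pic0` of a curve over an algebraically closed field of characteristic `0` is
`l`-divisible** (`l` prime). -/
theorem v27dv_main (K : Type u) (F : Type v) [Field K] [Field F] [Algebra K F] [IsAlgClosed K]
    [CharZero K] [IsCurveOver K F] [Algebra.EssFiniteType K F]
    (l : ℕ) [Fact l.Prime] (x : Pic0 K F) : ∃ y : Pic0 K F, l • y = x := by
  by_contra hcon
  push Not at hcon
  obtain ⟨δ, T, P, hgen, -, hP3⟩ := v27ow_exists K F
  generalize hg : genusFF K F = g at hgen
  have R : V27RR K F g := hg ▸ v27x_rr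
  have hdeg : ∀ v : Place K F, v.deg = 1 := IsCurveOver.forall_deg_eq_one_of_isAlgClosed
  obtain ⟨D, hD0, hD1, hD2, hD3⟩ : ∃ D : ℕ, 4 * δ.genus + δ.N + ∑ j, δ.d j ≤ D ∧ 2 * g + 1 ≤ D ∧
      2 * g * (1 * (2 * g + 2 * g)) + 2 * g ≤ D ∧
      2 * g * (1 * (l * (2 * g) + 2 * g)) + 2 * g ≤ D :=
    ⟨(4 * δ.genus + δ.N + ∑ j, δ.d j) + (2 * g + 1) + (2 * g * (1 * (2 * g + 2 * g)) + 2 * g) +
      (2 * g * (1 * (l * (2 * g) + 2 * g)) + 2 * g), by omega, by omega, by omega, by omega⟩
  have hP3D : V27coP3 D T.c := hP3 D hD0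
  haveI : IsDedekindDomain (V27pB T) := v27ifr_isDedekindDomain T D hP3D
  have h0 : V27dvPhi δ D l (2 * g) (v27ctwCoeffs T) :=
    (P.dvPhi_iff hdeg R le_rfl hD1 hD2 hD3 _ (v27ctw_tab_coeffs T) (v27ctw_isTable T) hP3D).mpr
      ⟨x, hcon⟩
  refine (v27dv_Phi.{u} δ D l (2 * g)).transfer {l} ?_ K (v27ctwCoeffs T) h0
  intro p _ hpbad
  have hne : l ≠ p := fun h => hpbad (by rw [h]; exact Finset.mem_singleton_self _)
  refine ⟨V27uFpBar.{u} p, inferInstance, inferInstance, inferInstance, fun w hw => ?_⟩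
  have hT : V27coIsTable (v27coTab w) := hw.1
  have hP3' : V27coP3 D (v27ctwTable w hT).c := hw.2.1
  obtain ⟨i1, i2, hg', R', ⟨P'⟩⟩ := v27ifr_closed (v27ctwTable w hT) D hP3'
  haveI := v27ifr_isDedekindDomain (v27ctwTable w hT) D hP3'
  have hdeg' : ∀ v : Place (V27uFpBar.{u} p) (FractionRing (V27pB (v27ctwTable w hT))),
      v.deg = 1 := IsCurveOver.forall_deg_eq_one_of_isAlgClosed
  rw [hgen] at R'
  obtain ⟨x', hx'⟩ := (P'.dvPhi_iff hdeg' R' le_rfl hD1 hD2 hD3 w rfl hT hP3').mp hw
  obtain ⟨y, hy⟩ := v27At_divisible p l hne x'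
  exact hx' y hy

/-- **`Pic0` of a curve over an algebraically closed field of characteristic `0` is divisible.** -/
theorem v27dv_divisible (K : Type u) (F : Type v) [Field K] [Field F] [Algebra K F] [IsAlgClosed K]
    [CharZero K] [IsCurveOver K F] [Algebra.EssFiniteType K F]
    (n : ℕ) (hn : 0 < n) (x : Pic0 K F) : ∃ y : Pic0 K F, n • y = x := by
  induction n using Nat.recOnMul generalizing x with
  | zero => exact absurd hn (lt_irrefl _)
  | one => exact ⟨x, one_smul _ _⟩
  | prime p hp =>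
    haveI : Fact p.Prime := ⟨hp⟩
    exact v27dv_main K F p x
  | mul a b iha ihb =>
    have ha : 0 < a := Nat.pos_of_ne_zero (by rintro rfl; simp at hn)
    have hb : 0 < b := Nat.pos_of_ne_zero (by rintro rfl; simp at hn)
    obtain ⟨y, hy⟩ := iha ha x
    obtain ⟨z, hz⟩ := ihb hb y
    exact ⟨z, by rw [mul_smul, hz, hy]⟩

end Fermat.Agent.V
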