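import Mathlib
import Fermat.Agent.V.Sem.Main
import Fermat.Agent.V.Div.Formula

/-!
# Program V, divisibility leaf (prefix `v27dv` / `V27dv`): semantics of the sentence

Owner: helper24.

On a presented curve `P : V27Presented K F T` (`K` algebraically closed, `V27pB T` Dedekind,
`R : V27RR K F g`, all places of degree one), for `2g ≤ g'` and `D` large:

`P.dvPhi_iff` : `V27dvPhi δ D l g' w ↔ ∃ x : Pic0 K F, ∀ y, l • y ≠ x` when `v27coTab w = T.c`.
-/

set_option autoImplicit false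
set_option linter.unusedSectionVars false
set_option linter.unusedVariables false
set_option linter.style.haveILetI false

noncomputable section

namespace Fermat.Agent.V

open AlgebraicCurve Polynomial Fermat.Agent.S24 Fermat.Agent.V.Dict Fermat.Agent.V.RR

variable {K : Type*} [Field K] {δ : V27pShape} {T : V27pTable K δ}
  {F : Type*} [Field F] [Algebra K F]

/-! ### classes of concatenated and repeated tuples of places -/

theorem v27dv_cls_append (hdeg : ∀ v : Place K F, v.deg = 1) (P0 : Place K F) {a b : ℕ}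
    (E : Fin a → Place K F) (G : Fin b → Place K F) :
    v27dcCls hdeg P0 (Fin.append E G) = v27dcCls hdeg P0 E + v27dcCls hdeg P0 G := by
  unfold v27dcCls
  rw [← Pic0.mk_add]
  congr 1
  apply Subtype.ext
  show v27dcSum (Fin.append E G) - Finsupp.single P0 ((a + b : ℕ) : ℤ) =
    (v27dcSum E - Finsupp.single P0 (a : ℤ)) + (v27dcSum G - Finsupp.single P0 (b : ℤ))
  rw [v27dcSum_append]
  push_cast
  rw [Finsupp.single_add]
  abel

theorem v27dv_cls_rep (hdeg : ∀ v : Place K F, v.deg = 1) (P0 : Place K F) (l : ℕ) {a : ℕ}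
    (E : Fin a → Place K F) :
    v27dcCls hdeg P0 (v27dcRep l E) = l • v27dcCls hdeg P0 E := by
  have hsmul : l • v27dcCls hdeg P0 E
      = Pic0.mk (l • ⟨v27dcSum E - Finsupp.single P0 (a : ℤ),
          v27dc_tuple_degree hdeg P0 E⟩) := rfl
  rw [hsmul]
  unfold v27dcCls
  congr 1
  apply Subtype.ext
  show v27dcSum (v27dcRep l E) - Finsupp.single P0 ((l * a : ℕ) : ℤ) =
    l • (v27dcSum E - Finsupp.single P0 (a : ℤ))
  rw [v27dcSum_rep, smul_sub]
  congr 1
  rw [← natCast_zsmul, Finsupp.smul_single]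
  push_cast
  simp

theorem v27dv_mem_torsion_one_iff (x : Pic0 K F) : x ∈ Pic0.torsion K F 1 ↔ x = 0 := by
  rw [Pic0.mem_torsion]
  simp

namespace V27Presented

variable [IsAlgClosed K] [IsDedekindDomain (V27pB T)] {g : ℕ}

theorem cls_append (P : V27Presented K F T) (hdeg : ∀ v : Place K F, v.deg = 1) {a b : ℕ}
    (E : Fin a → V27coP δ → K) (G : Fin b → V27coP δ → K) :
    P.cls hdeg (Fin.append E G) = P.cls hdeg E + P.cls hdeg G := by
  unfold cls
  rw [P.pl_append, v27dv_cls_append]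

theorem cls_dvTup (P : V27Presented K F T) (hdeg : ∀ v : Place K F, v.deg = 1) (l : ℕ) {a : ℕ}
    (E' Eb : Fin a → V27coP δ → K) :
    P.cls hdeg (v27dvTup l E' Eb) = l • P.cls hdeg E' + P.cls hdeg Eb := by
  unfold v27dvTup
  rw [P.cls_append]
  congr 1
  unfold cls
  exact v27dv_cls_rep hdeg P.P0 l (fun k => P.pl (E' k))

theorem pt_dvTup (P : V27Presented K F T) (l : ℕ) {a : ℕ} {E' Eb : Fin a → V27coP δ → K}
    (hE' : ∀ k, V27coPt T.c (E' k)) (hEb : ∀ k, V27coPt T.c (Eb k)) (i : Fin (l * a + a)) :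
    V27coPt T.c (v27dvTup l E' Eb i) := by
  unfold v27dvTup
  exact P.pt_append (fun k => hE' _) hEb i

/-- **(SEM-Div)**. -/
theorem dvPhi_iff (P : V27Presented K F T) (hdeg : ∀ v : Place K F, v.deg = 1)
    (R : V27RR K F g) {D l g' : ℕ} (hg' : 2 * g ≤ g')
    (hD1 : 2 * g + 1 ≤ D) (hD2 : 2 * g * (1 * (g' + g')) + 2 * g ≤ D)
    (hD3 : 2 * g * (1 * (l * g' + g')) + 2 * g ≤ D) (w : V27coC δ → K) (hw : v27coTab w = T.c)
    (hT : V27coIsTable T.c) (hP3 : V27coP3 D T.c) :
    V27dvPhi δ D l g' w ↔ ∃ x : Pic0 K F, ∀ y : Pic0 K F, l • y ≠ x := by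
  unfold V27dvPhi
  rw [hw]
  constructor
  · rintro ⟨-, -, E, hE, hno⟩
    refine ⟨P.cls hdeg E, fun y hy => ?_⟩
    obtain ⟨E', hE', rfl⟩ := P.exists_cls hdeg R hg' y
    obtain ⟨Eb, hEb, hb⟩ := P.exists_cls hdeg R hg' (-(P.cls hdeg E))
    refine hno E' hE' Eb hEb ⟨?_, ?_⟩
    · refine P.coord_of_tors hdeg R hD1 hD2 _ (P.pt_append hE hEb) ?_
      rw [v27dv_mem_torsion_one_iff]
      have := P.cls_append hdeg E Eb
      unfold cls at this hb
      rw [this, hb]
      exact add_neg_cancel _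
    · refine P.coord_of_tors hdeg R hD1 hD3 _ (P.pt_dvTup l hE' hEb) ?_
      rw [v27dv_mem_torsion_one_iff]
      have := P.cls_dvTup hdeg l E' Eb
      unfold cls at this hb hy
      rw [this, hb, hy]
      exact add_neg_cancel _
  · rintro ⟨x, hx⟩
    obtain ⟨E, hE, rfl⟩ := P.exists_cls hdeg R hg' x
    refine ⟨hT, hP3, E, hE, fun E' hE' Eb hEb ⟨h1, h2⟩ => hx (P.cls hdeg E') ?_⟩
    have t1 := P.tors_of_coord hdeg R _ (P.pt_append hE hEb) h1
    have t2 := P.tors_of_coord hdeg R _ (P.pt_dvTup l hE' hEb) h2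
    rw [v27dv_mem_torsion_one_iff] at t1 t2
    have e1 := P.cls_append hdeg E Eb
    have e2 := P.cls_dvTup hdeg l E' Eb
    unfold cls at e1 e2
    rw [e1] at t1
    rw [e2] at t2
    unfold cls
    have : v27dcCls hdeg P.P0 (fun k => P.pl (Eb k)) = -v27dcCls hdeg P.P0 (fun k => P.pl (E k)) :=
      (neg_eq_of_add_eq_zero_right t1).symm
    rw [this] at t2
    exact (sub_eq_zero.mp (by rw [sub_eq_add_neg]; exact t2))

end V27Presented

end Fermat.Agent.V
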